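/-
Project MW (S17), local analytic core, leaf [GM] (local Gauss–Mahler), part 1: the KRONECKER
SUBSTITUTION `X_b ↦ T^{D^{e(b)}}` (Mathlib only).  Prefix `mw_gm_`.  Owner: helper18.

For a multivariate polynomial `q` all of whose exponents are `< D` (`mw_gm_Box D q`) the one-variable
polynomial `mw_gm_kron R D q` has the same nonzero coefficients (`mw_gm_kron_coeff_kexp`,
`mw_gm_kron_coeff_cases`: base-`D` digits are unique, `mw_gm_kexp_injOn`), hence the same sup norm of
coefficients for every absolute value (`mw_gm_norm_eq_gaussNorm`).  Linear forms `mw_gm_lin u` and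
their products of total degree `< D` are in the box.
-/
import Mathlib

set_option autoImplicit false
set_option linter.unusedSectionVars false

noncomputable section

namespace Fermat.Agent.MW

open MvPolynomial

section Kronecker

variable {R : Type*} [CommRing R] {σ : Type*} [Fintype σ]

/-- the Kronecker exponent `∑_b a_b D^{e(b)}` -/
def mw_gm_kexp (D : ℕ) (a : σ →₀ ℕ) : ℕ := ∑ b, a b * D ^ (Fintype.equivFin σ b : ℕ)

variable (R) in
/-- the Kronecker substitution `X_b ↦ T^{D^{e(b)}}` -/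
def mw_gm_kron (D : ℕ) : MvPolynomial σ R →ₐ[R] Polynomial R :=
  aeval (fun b => (Polynomial.X : Polynomial R) ^ (D ^ (Fintype.equivFin σ b : ℕ)))

theorem mw_gm_kron_monomial (D : ℕ) (a : σ →₀ ℕ) (c : R) :
    mw_gm_kron R D (monomial a c) = Polynomial.monomial (mw_gm_kexp D a) c := by
  rw [mw_gm_kron, aeval_monomial, Finsupp.prod_fintype _ _ (fun i => by simp)]
  simp_rw [← pow_mul]
  rw [Finset.prod_pow_eq_pow_sum, ← Polynomial.C_mul_X_pow_eq_monomial]
  congr 2
  unfold mw_gm_kexp
  exact Finset.sum_congr rfl fun b _ => mul_comm _ _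

/-- base-`D` digits are unique -/
theorem mw_gm_kexp_injOn (D : ℕ) :
    Set.InjOn (mw_gm_kexp (σ := σ) D) {a | ∀ b, a b < D} := by
  intro a ha a' ha' h
  have key : ∀ a : σ →₀ ℕ, ∀ ha : (∀ b, a b < D), mw_gm_kexp D a =
      (finFunctionFinEquiv (fun i : Fin (Fintype.card σ) =>
        (⟨a ((Fintype.equivFin σ).symm i), ha _⟩ : Fin D)) : ℕ) := by
    intro a ha
    rw [finFunctionFinEquiv_apply, mw_gm_kexp, ← (Fintype.equivFin σ).symm.sum_comp]
    simp
  rw [key a ha, key a' ha'] at h
  have h2 := finFunctionFinEquiv.injective (Fin.ext h)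
  ext b
  have h3 := congrFun h2 (Fintype.equivFin σ b)
  simpa using congrArg Fin.val h3

/-- the coefficients of the Kronecker substitution -/
theorem mw_gm_kron_coeff (D : ℕ) (q : MvPolynomial σ R) (k : ℕ) :
    (mw_gm_kron R D q).coeff k = ∑ a ∈ q.support, if mw_gm_kexp D a = k then q.coeff a else 0 := by
  conv_lhs => rw [q.as_sum, map_sum]
  rw [Polynomial.finsetSum_coeff]
  refine Finset.sum_congr rfl fun a _ => ?_
  rw [mw_gm_kron_monomial, Polynomial.coeff_monomial]

/-- a polynomial all of whose exponents are `< D` -/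
def mw_gm_Box (D : ℕ) (q : MvPolynomial σ R) : Prop := ∀ a ∈ q.support, ∀ b, a b < D

theorem mw_gm_kron_coeff_kexp {D : ℕ} {q : MvPolynomial σ R} (hq : mw_gm_Box D q) (a : σ →₀ ℕ)
    (ha : a ∈ q.support) : (mw_gm_kron R D q).coeff (mw_gm_kexp D a) = q.coeff a := by
  classical
  rw [mw_gm_kron_coeff, Finset.sum_eq_single a]
  · rw [if_pos rfl]
  · intro a' ha' hne
    rw [if_neg]
    intro h
    exact hne (mw_gm_kexp_injOn D (hq a' ha') (hq a ha) h)
  · intro h; exact absurd ha h

theorem mw_gm_kron_coeff_cases {D : ℕ} {q : MvPolynomial σ R} (hq : mw_gm_Box D q) (k : ℕ) :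
    (mw_gm_kron R D q).coeff k = 0 ∨
      ∃ a ∈ q.support, (mw_gm_kron R D q).coeff k = q.coeff a := by
  classical
  by_cases h : ∃ a ∈ q.support, mw_gm_kexp D a = k
  · obtain ⟨a, ha, rfl⟩ := h
    exact Or.inr ⟨a, ha, mw_gm_kron_coeff_kexp hq a ha⟩
  · left
    rw [mw_gm_kron_coeff]
    refine Finset.sum_eq_zero fun a ha => ?_
    rw [if_neg]
    exact fun hk => h ⟨a, ha, hk⟩

/-- the sup norm of the coefficients of a multivariate polynomial -/
def mw_gm_norm (v : AbsoluteValue R ℝ) (q : MvPolynomial σ R) : ℝ := ⨆ a : σ →₀ ℕ, v (q.coeff a)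

theorem mw_gm_norm_bdd (v : AbsoluteValue R ℝ) (q : MvPolynomial σ R) :
    BddAbove (Set.range fun a : σ →₀ ℕ => v (q.coeff a)) := by
  classical
  refine ⟨∑ a ∈ q.support, v (q.coeff a), ?_⟩
  rintro _ ⟨a, rfl⟩
  by_cases ha : a ∈ q.support
  · exact Finset.single_le_sum (f := fun a => v (q.coeff a)) (fun _ _ => v.nonneg _) ha
  · show v (q.coeff a) ≤ _
    rw [notMem_support_iff.1 ha, map_zero]
    exact Finset.sum_nonneg fun _ _ => v.nonneg _

theorem mw_gm_le_norm (v : AbsoluteValue R ℝ) (q : MvPolynomial σ R) (a : σ →₀ ℕ) :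
    v (q.coeff a) ≤ mw_gm_norm v q := le_ciSup (mw_gm_norm_bdd v q) a

theorem mw_gm_norm_nonneg (v : AbsoluteValue R ℝ) (q : MvPolynomial σ R) : 0 ≤ mw_gm_norm v q :=
  Real.iSup_nonneg fun _ => v.nonneg _

/-- the Kronecker substitution preserves the sup norm of the coefficients -/
theorem mw_gm_norm_eq_gaussNorm (v : AbsoluteValue R ℝ) {D : ℕ} {q : MvPolynomial σ R}
    (hq : mw_gm_Box D q) : mw_gm_norm v q = (mw_gm_kron R D q).gaussNorm v 1 := by
  apply le_antisymm
  · refine ciSup_le fun a => ?_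
    by_cases ha : a ∈ q.support
    · rw [← mw_gm_kron_coeff_kexp hq a ha]
      have := (mw_gm_kron R D q).le_gaussNorm v (c := 1) zero_le_one (mw_gm_kexp D a)
      simpa using this
    · rw [notMem_support_iff.1 ha, map_zero]
      exact Polynomial.gaussNorm_nonneg v _ zero_le_one
  · obtain ⟨k, hk⟩ := (mw_gm_kron R D q).exists_eq_gaussNorm v 1
    rw [hk, one_pow, mul_one]
    rcases mw_gm_kron_coeff_cases hq k with h0 | ⟨a, -, ha⟩
    · rw [h0, map_zero]; exact mw_gm_norm_nonneg v q
    · rw [ha]; exact mw_gm_le_norm v q a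

/-- the linear form `∑_b u_b X_b` -/
def mw_gm_lin (u : σ → R) : MvPolynomial σ R := ∑ b, C (u b) * X b

theorem mw_gm_lin_coeff (u : σ → R) (a : σ →₀ ℕ) :
    (mw_gm_lin u).coeff a = ∑ b, if Finsupp.single b 1 = a then u b else 0 := by
  classical
  rw [mw_gm_lin, coeff_sum]
  refine Finset.sum_congr rfl fun b _ => ?_
  rw [coeff_C_mul, coeff_X]
  split_ifs <;> simp

theorem mw_gm_lin_coeff_single (u : σ → R) (b : σ) :
    (mw_gm_lin u).coeff (Finsupp.single b 1) = u b := by
  classical
  rw [mw_gm_lin_coeff, Finset.sum_eq_single b]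
  · rw [if_pos rfl]
  · intro b' _ hne
    rw [if_neg]
    intro h
    apply hne
    have := Finsupp.single_left_injective (one_ne_zero) h
    exact this
  · intro h; exact absurd (Finset.mem_univ b) h

theorem mw_gm_lin_support (u : σ → R) (a : σ →₀ ℕ) (ha : a ∈ (mw_gm_lin u).support) :
    ∃ b, a = Finsupp.single b 1 := by
  classical
  rw [mem_support_iff, mw_gm_lin_coeff] at ha
  by_contra hcon
  push Not at hcon
  apply ha
  refine Finset.sum_eq_zero fun b _ => ?_
  rw [if_neg]
  exact fun h => hcon b h.symm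

theorem mw_gm_norm_lin (v : AbsoluteValue R ℝ) (u : σ → R) :
    mw_gm_norm v (mw_gm_lin u) = ⨆ b, v (u b) := by
  classical
  apply le_antisymm
  · refine ciSup_le fun a => ?_
    by_cases ha : a ∈ (mw_gm_lin u).support
    · obtain ⟨b, rfl⟩ := mw_gm_lin_support u a ha
      rw [mw_gm_lin_coeff_single]
      exact le_ciSup (f := fun b => v (u b)) (Set.finite_range _).bddAbove b
    · rw [notMem_support_iff.1 ha, map_zero]
      exact Real.iSup_nonneg fun _ => v.nonneg _
  · rcases isEmpty_or_nonempty σ with hσ | hσ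
    · have h0 : (⨆ b, v (u b)) = 0 := Real.iSup_of_isEmpty _
      rw [h0]; exact mw_gm_norm_nonneg v _
    · refine ciSup_le fun b => ?_
      rw [← mw_gm_lin_coeff_single u b]
      exact mw_gm_le_norm v _ _

theorem mw_gm_box_lin {D : ℕ} (hD : 2 ≤ D) (u : σ → R) : mw_gm_Box D (mw_gm_lin u) := by
  classical
  intro a ha b
  obtain ⟨b', rfl⟩ := mw_gm_lin_support u a ha
  rw [Finsupp.single_apply]
  split_ifs <;> omega

theorem mw_gm_totalDegree_lin (u : σ → R) : (mw_gm_lin u).totalDegree ≤ 1 := by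
  rw [mw_gm_lin]
  refine (totalDegree_finsetSum _ _).trans ?_
  refine Finset.sup_le fun b _ => ?_
  refine (totalDegree_mul _ _).trans ?_
  rw [totalDegree_C, zero_add]
  have : (X b : MvPolynomial σ R) = monomial (Finsupp.single b 1) 1 := rfl
  rw [this]
  refine (totalDegree_monomial_le _ _).trans ?_
  simp

theorem mw_gm_box_prod {ι : Type*} {D n : ℕ} (hD : n < D) (S : Finset ι) (e : ι → ℕ)
    (u : ι → σ → R) (he : ∑ i ∈ S, e i ≤ n) :
    mw_gm_Box D (∏ i ∈ S, mw_gm_lin (u i) ^ e i) := by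
  intro a ha b
  have h1 : (∏ i ∈ S, mw_gm_lin (u i) ^ e i).totalDegree ≤ n := by
    refine (totalDegree_finsetProd _ _).trans (le_trans ?_ he)
    refine Finset.sum_le_sum fun i _ => ?_
    refine (totalDegree_pow _ _).trans ?_
    calc e i * (mw_gm_lin (u i)).totalDegree ≤ e i * 1 :=
          Nat.mul_le_mul_left _ (mw_gm_totalDegree_lin _)
      _ = e i := mul_one _
  have h2 : (a.sum fun _ k => k) ≤ n := (le_totalDegree ha).trans h1
  have h3 : a b ≤ a.sum fun _ k => k := by
    by_cases hb : b ∈ a.support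
    · exact Finset.single_le_sum (f := fun b => a b) (fun _ _ => Nat.zero_le _) hb
    · rw [Finsupp.notMem_support_iff.1 hb]; exact Nat.zero_le _
  omega

theorem mw_gm_natDegree_kron_lin {D : ℕ} (hD : 1 ≤ D) (u : σ → R) :
    (mw_gm_kron R D (mw_gm_lin u)).natDegree ≤ D ^ Fintype.card σ := by
  rw [mw_gm_lin, map_sum]
  refine Polynomial.natDegree_sum_le_of_forall_le _ _ fun b _ => ?_
  rw [map_mul, mw_gm_kron, aeval_C, aeval_X]
  refine (Polynomial.natDegree_C_mul_X_pow_le _ _).trans ?_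
  exact Nat.pow_le_pow_right hD (Fintype.equivFin σ b).2.le

end Kronecker

end Fermat.Agent.MW
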