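/-
Project MW (S17), local analytic core, leaf [GM] (local Gauss–Mahler), part 2: ONE VARIABLE
(Mathlib only).  Prefix `mw_gm_`.  Owner: helper18.

* nonarchimedean absolute values: the Gauss norm of a product of powers is the product of the powers
  of the Gauss norms (`mw_gm_gaussNorm_prod`, from Mathlib's `Polynomial.gaussNorm_mul`);
* `ℂ`: Gelfond's inequalities via the Mahler measure (`Polynomial.mahlerMeasure_mul`,
  `supNorm ≤ 2^deg · M`, `M ≤ (deg + 1) · supNorm`): `mw_gm_prod_supNorm_le`, `mw_gm_supNorm_prod_le`;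
* `mw_gm_gaussNorm_place`: for the absolute value `|φ ·|` of an embedding `φ : F → ℂ` the Gauss norm
  is the sup norm of the image polynomial.
-/
import Mathlib

set_option autoImplicit false
set_option linter.unusedSectionVars false

noncomputable section

namespace Fermat.Agent.MW

open Polynomial

section OneVarNonarch

variable {F : Type*} [Field F] (v : AbsoluteValue F ℝ) (hna : IsNonarchimedean v)

include hna in
theorem mw_gm_gaussNorm_pow (g : F[X]) (e : ℕ) :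
    (g ^ e).gaussNorm v 1 = g.gaussNorm v 1 ^ e := by
  induction e with
  | zero =>
    rw [pow_zero, pow_zero, ← Polynomial.C_1, Polynomial.gaussNorm_C, map_one]
  | succ e ih => rw [pow_succ, Polynomial.gaussNorm_mul hna one_pos, ih, pow_succ]

include hna in
theorem mw_gm_gaussNorm_prod {ι : Type*} (S : Finset ι) (e : ι → ℕ) (g : ι → F[X]) :
    (∏ i ∈ S, g i ^ e i).gaussNorm v 1 = ∏ i ∈ S, (g i).gaussNorm v 1 ^ e i := by
  classical
  induction S using Finset.induction_on with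
  | empty =>
    rw [Finset.prod_empty, Finset.prod_empty, ← Polynomial.C_1, Polynomial.gaussNorm_C, map_one]
  | insert a S ha ih =>
    rw [Finset.prod_insert ha, Finset.prod_insert ha, Polynomial.gaussNorm_mul hna one_pos, ih,
      mw_gm_gaussNorm_pow v hna]

end OneVarNonarch

section OneVarArch

theorem mw_gm_mahler_pow (g : ℂ[X]) (e : ℕ) : (g ^ e).mahlerMeasure = g.mahlerMeasure ^ e := by
  induction e with
  | zero => simp
  | succ e ih => rw [pow_succ, mahlerMeasure_mul, ih, pow_succ]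

theorem mw_gm_mahler_prod {ι : Type*} (S : Finset ι) (e : ι → ℕ) (g : ι → ℂ[X]) :
    (∏ i ∈ S, g i ^ e i).mahlerMeasure = ∏ i ∈ S, (g i).mahlerMeasure ^ e i := by
  classical
  induction S using Finset.induction_on with
  | empty => simp
  | insert a S ha ih =>
    rw [Finset.prod_insert ha, Finset.prod_insert ha, mahlerMeasure_mul, ih, mw_gm_mahler_pow]

/-- `‖g‖ ≤ 2^{deg g} M(g)` -/
theorem mw_gm_supNorm_le_mahler (g : ℂ[X]) :
    g.supNorm ≤ 2 ^ g.natDegree * g.mahlerMeasure := by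
  refine (supNorm_le_choose_natDegree_div_two_mul_mahlerMeasure g).trans ?_
  refine mul_le_mul_of_nonneg_right ?_ g.mahlerMeasure_nonneg
  exact_mod_cast Nat.choose_le_two_pow _ _

/-- `M(g) ≤ (deg g + 1) ‖g‖` -/
theorem mw_gm_mahler_le_supNorm (g : ℂ[X]) :
    g.mahlerMeasure ≤ (g.natDegree + 1) * g.supNorm := by
  refine (mahlerMeasure_le_sqrt_natDegree_add_one_mul_supNorm g).trans ?_
  refine mul_le_mul_of_nonneg_right ?_ g.supNorm_nonneg
  have h1 : (1 : ℝ) ≤ (g.natDegree : ℝ) + 1 := by linarith [Nat.cast_nonneg (α := ℝ) g.natDegree]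
  calc √((g.natDegree : ℝ) + 1) ≤ √(((g.natDegree : ℝ) + 1) ^ 2) := by
        apply Real.sqrt_le_sqrt
        nlinarith
    _ = (g.natDegree : ℝ) + 1 := Real.sqrt_sq (by linarith)

variable {ι : Type*} (S : Finset ι) (e : ι → ℕ) (g : ι → ℂ[X])

theorem mw_gm_natDegree_prod (hg : ∀ i ∈ S, g i ≠ 0) :
    (∏ i ∈ S, g i ^ e i).natDegree = ∑ i ∈ S, e i * (g i).natDegree := by
  rw [natDegree_prod _ _ fun i hi => pow_ne_zero _ (hg i hi)]
  exact Finset.sum_congr rfl fun i _ => natDegree_pow _ _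

/-- lower Gelfond inequality: `∏ ‖g_i‖^{e_i} ≤ 2^{d₀} (d₀+1) ‖∏ g_i^{e_i}‖` -/
theorem mw_gm_prod_supNorm_le (d₀ : ℕ) (hg : ∀ i ∈ S, g i ≠ 0)
    (hP : (∏ i ∈ S, g i ^ e i).natDegree ≤ d₀) :
    ∏ i ∈ S, (g i).supNorm ^ e i ≤ 2 ^ d₀ * (d₀ + 1) * (∏ i ∈ S, g i ^ e i).supNorm := by
  have h1 : ∏ i ∈ S, (g i).supNorm ^ e i ≤
      ∏ i ∈ S, (2 ^ (g i).natDegree * (g i).mahlerMeasure) ^ e i := by
    refine Finset.prod_le_prod (fun i _ => pow_nonneg (g i).supNorm_nonneg _) fun i _ => ?_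
    exact pow_le_pow_left₀ (g i).supNorm_nonneg (mw_gm_supNorm_le_mahler (g i)) _
  have h2 : ∏ i ∈ S, (2 ^ (g i).natDegree * (g i).mahlerMeasure) ^ e i =
      2 ^ (∏ i ∈ S, g i ^ e i).natDegree * (∏ i ∈ S, g i ^ e i).mahlerMeasure := by
    rw [mw_gm_natDegree_prod S e g hg, mw_gm_mahler_prod, ← Finset.prod_pow_eq_pow_sum,
      ← Finset.prod_mul_distrib]
    refine Finset.prod_congr rfl fun i _ => ?_
    rw [mul_pow, ← pow_mul, mul_comm (e i)]
  rw [h2] at h1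
  refine h1.trans ?_
  have h3 := mw_gm_mahler_le_supNorm (∏ i ∈ S, g i ^ e i)
  have h4 : (2 : ℝ) ^ (∏ i ∈ S, g i ^ e i).natDegree ≤ 2 ^ d₀ :=
    pow_le_pow_right₀ one_le_two hP
  have h5 : ((∏ i ∈ S, g i ^ e i).natDegree : ℝ) + 1 ≤ (d₀ : ℝ) + 1 := by
    have : ((∏ i ∈ S, g i ^ e i).natDegree : ℝ) ≤ d₀ := by exact_mod_cast hP
    linarith
  have h6 := (∏ i ∈ S, g i ^ e i).supNorm_nonneg
  have h7 := (∏ i ∈ S, g i ^ e i).mahlerMeasure_nonneg
  calc 2 ^ (∏ i ∈ S, g i ^ e i).natDegree * (∏ i ∈ S, g i ^ e i).mahlerMeasure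
      ≤ 2 ^ d₀ * (((∏ i ∈ S, g i ^ e i).natDegree + 1) * (∏ i ∈ S, g i ^ e i).supNorm) :=
        mul_le_mul h4 h3 h7 (by positivity)
    _ ≤ 2 ^ d₀ * (((d₀ : ℝ) + 1) * (∏ i ∈ S, g i ^ e i).supNorm) := by
        gcongr
    _ = 2 ^ d₀ * (d₀ + 1) * (∏ i ∈ S, g i ^ e i).supNorm := by ring

/-- upper inequality: `‖∏ g_i^{e_i}‖ ≤ 2^{d₀} (d₀+1)^n ∏ ‖g_i‖^{e_i}` -/
theorem mw_gm_supNorm_prod_le (d₀ n : ℕ) (hdeg : ∀ i ∈ S, (g i).natDegree ≤ d₀)
    (hP : (∏ i ∈ S, g i ^ e i).natDegree ≤ d₀) (he : ∑ i ∈ S, e i ≤ n) :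
    (∏ i ∈ S, g i ^ e i).supNorm ≤ 2 ^ d₀ * (d₀ + 1) ^ n * ∏ i ∈ S, (g i).supNorm ^ e i := by
  have h1 := mw_gm_supNorm_le_mahler (∏ i ∈ S, g i ^ e i)
  rw [mw_gm_mahler_prod] at h1
  have h2 : ∏ i ∈ S, (g i).mahlerMeasure ^ e i ≤
      ∏ i ∈ S, (((d₀ : ℝ) + 1) * (g i).supNorm) ^ e i := by
    refine Finset.prod_le_prod (fun i _ => pow_nonneg (g i).mahlerMeasure_nonneg _) fun i hi => ?_
    refine pow_le_pow_left₀ (g i).mahlerMeasure_nonneg ?_ _
    refine (mw_gm_mahler_le_supNorm (g i)).trans ?_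
    have : ((g i).natDegree : ℝ) ≤ d₀ := by exact_mod_cast hdeg i hi
    have := (g i).supNorm_nonneg
    gcongr
  have h3 : ∏ i ∈ S, (((d₀ : ℝ) + 1) * (g i).supNorm) ^ e i =
      ((d₀ : ℝ) + 1) ^ (∑ i ∈ S, e i) * ∏ i ∈ S, (g i).supNorm ^ e i := by
    rw [← Finset.prod_pow_eq_pow_sum, ← Finset.prod_mul_distrib]
    exact Finset.prod_congr rfl fun i _ => mul_pow _ _ _
  have h4 : ((d₀ : ℝ) + 1) ^ (∑ i ∈ S, e i) ≤ ((d₀ : ℝ) + 1) ^ n :=
    pow_le_pow_right₀ (by linarith [Nat.cast_nonneg (α := ℝ) d₀]) he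
  have h5 : (2 : ℝ) ^ (∏ i ∈ S, g i ^ e i).natDegree ≤ 2 ^ d₀ :=
    pow_le_pow_right₀ one_le_two hP
  have h6 : 0 ≤ ∏ i ∈ S, (g i).supNorm ^ e i :=
    Finset.prod_nonneg fun i _ => pow_nonneg (g i).supNorm_nonneg _
  have h7 : 0 ≤ ∏ i ∈ S, (g i).mahlerMeasure ^ e i :=
    Finset.prod_nonneg fun i _ => pow_nonneg (g i).mahlerMeasure_nonneg _
  calc (∏ i ∈ S, g i ^ e i).supNorm
      ≤ 2 ^ (∏ i ∈ S, g i ^ e i).natDegree * ∏ i ∈ S, (g i).mahlerMeasure ^ e i := h1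
    _ ≤ 2 ^ d₀ * (((d₀ : ℝ) + 1) ^ (∑ i ∈ S, e i) * ∏ i ∈ S, (g i).supNorm ^ e i) := by
        rw [← h3]
        exact mul_le_mul h5 h2 h7 (by positivity)
    _ ≤ 2 ^ d₀ * (((d₀ : ℝ) + 1) ^ n * ∏ i ∈ S, (g i).supNorm ^ e i) := by
        gcongr
    _ = 2 ^ d₀ * (d₀ + 1) ^ n * ∏ i ∈ S, (g i).supNorm ^ e i := by ring

end OneVarArch

section Transfer

variable {F : Type*} [Field F] (φ : F →+* ℂ)

/-- for the absolute value `|φ ·|`, the Gauss norm is the sup norm of the image polynomial -/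
theorem mw_gm_gaussNorm_place (p : F[X]) :
    p.gaussNorm (NumberField.place φ) 1 = (p.map φ).supNorm := by
  apply le_antisymm
  · obtain ⟨k, hk⟩ := p.exists_eq_gaussNorm (NumberField.place φ) 1
    rw [hk, one_pow, mul_one, NumberField.place_apply, ← coeff_map]
    exact (p.map φ).le_supNorm k
  · obtain ⟨k, hk⟩ := (p.map φ).exists_eq_supNorm
    rw [hk, coeff_map, ← NumberField.place_apply]
    have := p.le_gaussNorm (NumberField.place φ) (c := 1) zero_le_one k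
    simpa using this

end Transfer

end Fermat.Agent.MW
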