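/-
Project MW (S17), local analytic core, leaf [GM] (local Gauss–Mahler), part 3: products of linear
forms in several variables over a field with an absolute value (Mathlib only).  Prefix `mw_gm_`.
Owner: helper18.

* `mw_gm_core_nonarch`: Gauss's lemma — at a nonarchimedean absolute value the sup norm of
  `∏ ⟨U, u_i⟩^{e_i}` is `∏ ‖u_i‖^{e_i}`;
* `mw_gm_core_arch`: Gelfond's inequalities — at the absolute value of a complex embedding the two
  agree up to the factor `2^{d₀} (d₀+1)^n`, `d₀ = (n+1)(n+2)^m` (Kronecker substitution + Mahler).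
-/
import Fermat.Agent.MW.Core.GM.Kronecker
import Fermat.Agent.MW.Core.GM.OneVar

set_option autoImplicit false
set_option linter.unusedSectionVars false

noncomputable section

namespace Fermat.Agent.MW

open MvPolynomial

section Core

variable {F : Type*} [Field F] {σ : Type*} [Fintype σ] {ι : Type*}

/-- **Gauss's lemma** for products of linear forms in several variables, at a nonarchimedean
absolute value. -/
theorem mw_gm_core_nonarch (v : AbsoluteValue F ℝ) (hna : IsNonarchimedean v) (S : Finset ι)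
    (e : ι → ℕ) (u : ι → σ → F) :
    mw_gm_norm v (∏ i ∈ S, mw_gm_lin (u i) ^ e i) = ∏ i ∈ S, (⨆ b, v (u i b)) ^ e i := by
  set n := ∑ i ∈ S, e i with hn
  have hD : n < n + 2 := by omega
  rw [mw_gm_norm_eq_gaussNorm v (mw_gm_box_prod hD S e u le_rfl), map_prod]
  simp_rw [map_pow]
  rw [mw_gm_gaussNorm_prod v hna]
  refine Finset.prod_congr rfl fun i _ => ?_
  rw [← mw_gm_norm_eq_gaussNorm v (mw_gm_box_lin (by omega) (u i)), mw_gm_norm_lin]

/-- **Gelfond's inequalities** for products of at most `n` linear forms in several variables, at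
the absolute value of a complex embedding. -/
theorem mw_gm_core_arch (φ : F →+* ℂ) (n : ℕ) (S : Finset ι) (e : ι → ℕ) (u : ι → σ → F)
    (he : ∑ i ∈ S, e i ≤ n) (hu : ∀ i ∈ S, u i ≠ 0) :
    mw_gm_norm (NumberField.place φ) (∏ i ∈ S, mw_gm_lin (u i) ^ e i) ≤
        2 ^ ((n + 1) * (n + 2) ^ Fintype.card σ) * (((n + 1) * (n + 2) ^ Fintype.card σ : ℕ) + 1) ^ n *
          ∏ i ∈ S, (⨆ b, NumberField.place φ (u i b)) ^ e i ∧
      ∏ i ∈ S, (⨆ b, NumberField.place φ (u i b)) ^ e i ≤
        2 ^ ((n + 1) * (n + 2) ^ Fintype.card σ) * (((n + 1) * (n + 2) ^ Fintype.card σ : ℕ) + 1) *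
          mw_gm_norm (NumberField.place φ) (∏ i ∈ S, mw_gm_lin (u i) ^ e i) := by
  set v := NumberField.place φ with hv
  set D := n + 2 with hDdef
  set d₀ := (n + 1) * D ^ Fintype.card σ with hd₀
  have hD : n < D := by omega
  -- the one-variable polynomials over `ℂ`
  set g : ι → Polynomial ℂ := fun i => (mw_gm_kron F D (mw_gm_lin (u i))).map φ with hg
  have hnorm_i : ∀ i, (g i).supNorm = ⨆ b, v (u i b) := by
    intro i
    rw [hg, ← mw_gm_gaussNorm_place, ← mw_gm_norm_eq_gaussNorm v (mw_gm_box_lin (by omega) (u i)),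
      mw_gm_norm_lin]
  have hprod : (mw_gm_kron F D (∏ i ∈ S, mw_gm_lin (u i) ^ e i)).map φ = ∏ i ∈ S, g i ^ e i := by
    rw [map_prod, Polynomial.map_prod]
    refine Finset.prod_congr rfl fun i _ => ?_
    rw [map_pow, Polynomial.map_pow]
  have hnormP : mw_gm_norm v (∏ i ∈ S, mw_gm_lin (u i) ^ e i) = (∏ i ∈ S, g i ^ e i).supNorm := by
    rw [mw_gm_norm_eq_gaussNorm v (mw_gm_box_prod hD S e u he), mw_gm_gaussNorm_place, hprod]
  have hpos_i : ∀ i ∈ S, 0 < ⨆ b, v (u i b) := by
    intro i hi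
    obtain ⟨b, hb⟩ : ∃ b, u i b ≠ 0 := by
      by_contra hcon
      push Not at hcon
      exact hu i hi (funext hcon)
    have h1 : 0 < v (u i b) := v.pos hb
    exact h1.trans_le (le_ciSup (f := fun b => v (u i b)) (Set.finite_range _).bddAbove b)
  have hg0 : ∀ i ∈ S, g i ≠ 0 := by
    intro i hi h0
    have := hpos_i i hi
    rw [← hnorm_i, h0, Polynomial.supNorm_zero] at this
    exact lt_irrefl _ this
  have hdeg_i : ∀ i ∈ S, (g i).natDegree ≤ d₀ := by
    intro i hi
    have h1 : (g i).natDegree ≤ D ^ Fintype.card σ :=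
      (Polynomial.natDegree_map_le).trans (mw_gm_natDegree_kron_lin (by omega) (u i))
    refine h1.trans ?_
    rw [hd₀]
    exact Nat.le_mul_of_pos_left _ (by omega)
  have hdegP : (∏ i ∈ S, g i ^ e i).natDegree ≤ d₀ := by
    refine (Polynomial.natDegree_prod_le _ _).trans ?_
    have h1 : ∑ i ∈ S, (g i ^ e i).natDegree ≤ ∑ i ∈ S, e i * D ^ Fintype.card σ := by
      refine Finset.sum_le_sum fun i _ => ?_
      refine (Polynomial.natDegree_pow_le).trans ?_
      refine Nat.mul_le_mul_left _ ?_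
      exact (Polynomial.natDegree_map_le).trans (mw_gm_natDegree_kron_lin (by omega) (u i))
    refine h1.trans ?_
    rw [← Finset.sum_mul, hd₀]
    exact Nat.mul_le_mul_right _ (by omega)
  rw [hnormP]
  simp_rw [← hnorm_i]
  exact ⟨mw_gm_supNorm_prod_le S e g d₀ n hdeg_i hdegP he,
    mw_gm_prod_supNorm_le S e g d₀ hg0 hdegP⟩

end Core

end Fermat.Agent.MW
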